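import Fermat.Agent.Jac.ModGlue38.Stack

/-!
# Effective descent of `𝒪`-modules along open immersions, `DescentData` form (brick M1b, helper38)

`essSurj_toDescentData`: for a family of open immersions `g i : Y i ⟶ X`, the functor
`Fmod.toDescentData g` of Mathlib's descent API is essentially surjective.
-/

set_option autoImplicit false
universe u
open CategoryTheory AlgebraicGeometry TopologicalSpace Opposite
namespace Fermat.Agent.Jac.ModGlue38
open Scheme.Modules
noncomputable section

open Limits Pseudofunctor

variable {X : Scheme.{u}} {ι : Type u} {Y : ι → Scheme.{u}} (g : ∀ i, Y i ⟶ X)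

/-- chosen pullbacks -/
abbrev sqOf (i j : ι) : ChosenPullback (g i) (g j) := stdChosenPullback (g i) (g j)

/-- chosen triple pullbacks -/
abbrev sq₃Of (i j k : ι) : ChosenPullback₃ (sqOf g i j) (sqOf g j k) (sqOf g i k) :=
  stdChosenPullback₃ (g i) (g j) (g k)

lemma pullbackCongr_hom_inv_app {Z : Scheme.{u}} {f₁ f₂ f₃ : Z ⟶ X} (h₁ : f₁ = f₂)
    (h₂ : f₃ = f₂) (L : X.Modules) :
    (pullbackCongr h₁).hom.app L ≫ (pullbackCongr h₂).inv.app L =
      (pullbackCongr (h₁.trans h₂.symm)).hom.app L := by
  subst h₁ h₂
  simp [pullbackCongr]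

variable [∀ i, IsOpenImmersion (g i)]

variable {g} in
lemma descent_comm (D : Fmod.DescentData g) {i j : ι} {Z : Scheme.{u}} (q : Z ⟶ X)
    (a : Z ⟶ Y i) (b : Z ⟶ Y j) [IsOpenImmersion q] [IsOpenImmersion a] [IsOpenImmersion b]
    (ha : a ≫ g i = q) (hb : b ≫ g j = q) :
    (Fmod.map a.op.toLoc).toFunctor.map ((PBDescent.ofDescentData D).gluedIso i).hom ≫
      D.hom q a b ha hb =
    ((Fmod.toDescentData g).obj (PBDescent.ofDescentData D).glued).hom q a b ha hb ≫
      (Fmod.map b.op.toLoc).toFunctor.map ((PBDescent.ofDescentData D).gluedIso j).hom := by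
  have h := (PBDescent.ofDescentData D).gluedIso_comm q a b ha hb
  refine h.trans ?_
  have h2 : ((Fmod.toDescentData g).obj (PBDescent.ofDescentData D).glued).hom q a b ha hb =
      (pullbackComp a (g i)).hom.app (PBDescent.ofDescentData D).glued ≫
        (pullbackCongr (ha.trans hb.symm)).hom.app (PBDescent.ofDescentData D).glued ≫
        (pullbackComp b (g j)).inv.app (PBDescent.ofDescentData D).glued := by
    rw [← pullbackCongr_hom_inv_app ha hb]
    change (Fmod.mapComp' (g i).op.toLoc a.op.toLoc q.op.toLoc _).inv.toNatTrans.app _ ≫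
      (Fmod.mapComp' (g j).op.toLoc b.op.toLoc q.op.toLoc _).hom.toNatTrans.app _ = _
    rw [Fmod_mapComp'_inv_app (g i) a q ha, Fmod_mapComp'_hom_app (g j) b q hb]
    exact Category.assoc _ _ _
  rw [h2]
  symm
  exact (Category.assoc _ _ _).trans (congrArg _ (Category.assoc _ _ _))

instance sqOf_p₁_isOpenImmersion (i j : ι) : IsOpenImmersion (sqOf g i j).p₁ :=
  inferInstanceAs (IsOpenImmersion (pullback.fst (g i) (g j)))

instance sqOf_p₂_isOpenImmersion (i j : ι) : IsOpenImmersion (sqOf g i j).p₂ :=
  inferInstanceAs (IsOpenImmersion (pullback.snd (g i) (g j)))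

instance sqOf_p_isOpenImmersion (i j : ι) : IsOpenImmersion (sqOf g i j).p :=
  inferInstanceAs (IsOpenImmersion (pullback.fst (g i) (g j) ≫ g i))

/-- the isomorphism of descent data (on the chosen pullbacks) between the descent datum of the
glued module and the given one -/
def descentDataIso' (D : Fmod.DescentData g) :
    (DescentData'.fromDescentDataFunctor Fmod (sqOf g) (sq₃Of g)).obj
      ((Fmod.toDescentData g).obj (PBDescent.ofDescentData D).glued) ≅
    (DescentData'.fromDescentDataFunctor Fmod (sqOf g) (sq₃Of g)).obj D :=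
  DescentData'.isoMk (fun i => (PBDescent.ofDescentData D).gluedIso i) (fun i j =>
    descent_comm D (sqOf g i j).p (sqOf g i j).p₁ (sqOf g i j).p₂ (sqOf g i j).hp₁
      (sqOf g i j).hp₂)

/-- **Effective descent** for `𝒪`-modules along a family of open immersions: every descent datum
(in the sense of Mathlib's `Pseudofunctor.DescentData`) relative to a family of open immersions
`g i : Y i ⟶ X` is isomorphic to the descent datum of the glued module. -/
def descentDataIso (D : Fmod.DescentData g) :
    (Fmod.toDescentData g).obj (PBDescent.ofDescentData D).glued ≅ D :=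
  (DescentData'.descentDataEquivalence Fmod (sqOf g) (sq₃Of g)).inverse.preimageIso
    (descentDataIso' g D)

/-- **Effective descent** for `𝒪`-modules along a family of open immersions. -/
theorem essSurj_toDescentData : (Fmod.toDescentData g).EssSurj :=
  ⟨fun D => ⟨(PBDescent.ofDescentData D).glued, ⟨descentDataIso g D⟩⟩⟩

end
end Fermat.Agent.Jac.ModGlue38
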