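import Fermat.Agent.Jac.ModGlue38.LocHom

/-!
# Gluing `𝒪_X`-modules along an open cover, section-level core (brick M1 ModGlue, helper38)

`GlueData X`: opens `U i`, modules `N i : X.Modules` (only `N i|_{U i}` matters), transition
morphisms `φ i j : LocHom (U i ⊓ U j) (N i) (N j)` with `φ i i = id` and the cocycle condition.
`GlueData.glued : X.Modules` is the glued module; `proj k : LocHom (U k) glued (N k)` and
`lift k` are mutually inverse, and `proj` is compatible with the `φ i j`.
-/

set_option autoImplicit false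
universe u
open CategoryTheory AlgebraicGeometry TopologicalSpace Opposite
namespace Fermat.Agent.Jac.ModGlue38
noncomputable section
variable {X : Scheme.{u}}

/-- Section-level gluing data for `𝒪_X`-modules: modules `N i` on `X` (only `N i|_{U i}` matters),
transition morphisms on `U i ⊓ U j`, identity on the diagonal, cocycle condition. -/
structure GlueData (X : Scheme.{u}) where
  ι : Type u
  U : ι → X.Opens
  N : ι → X.Modules
  φ : ∀ i j, LocHom (U i ⊓ U j) (N i) (N j)
  φ_self : ∀ i W hW, (φ i i).app W hW = 𝟙 _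
  cocycle : ∀ i j k W (hi : W ≤ U i) (hj : W ≤ U j) (hk : W ≤ U k),
    (φ i j).app W (le_inf hi hj) ≫ (φ j k).app W (le_inf hj hk) = (φ i k).app W (le_inf hi hk)

namespace GlueData

variable (D : GlueData X)

lemma cocycle_apply (i j k : D.ι) (W : X.Opens) (hi : W ≤ D.U i) (hj : W ≤ D.U j) (hk : W ≤ D.U k)
    (s : Γ(D.N i, W)) :
    (D.φ j k).app W (le_inf hj hk) ((D.φ i j).app W (le_inf hi hj) s) =
      (D.φ i k).app W (le_inf hi hk) s :=
  ConcreteCategory.congr_hom (D.cocycle i j k W hi hj hk) s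

/-- the compatibility condition cutting out sections of the glued module over `O` -/
def IsCompat (O : X.Opens) (s : ∀ i, Γ(D.N i, D.U i ⊓ O)) : Prop :=
  ∀ i j, (D.φ i j).app (D.U i ⊓ D.U j ⊓ O) inf_le_left
      ((D.N i).presheaf.map (homOfLE (inf_le_inf_right O inf_le_left :
        D.U i ⊓ D.U j ⊓ O ≤ D.U i ⊓ O)).op (s i)) =
    (D.N j).presheaf.map (homOfLE (inf_le_inf_right O inf_le_right :
        D.U i ⊓ D.U j ⊓ O ≤ D.U j ⊓ O)).op (s j)

/-- sections of the glued module over `O`, as an additive subgroup of the product -/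
def secSubgroup (O : X.Opens) : AddSubgroup (∀ i, Γ(D.N i, D.U i ⊓ O)) where
  carrier := {s | D.IsCompat O s}
  zero_mem' := by
    intro i j
    simp
  add_mem' := by
    intro s t hs ht i j
    simp only [Pi.add_apply, map_add]
    rw [hs i j, ht i j]
  neg_mem' := by
    intro s hs i j
    simp only [Pi.neg_apply, map_neg]
    rw [hs i j]

/-- local form of the compatibility condition: on any open `W ≤ U i ⊓ U j ⊓ O` -/
lemma IsCompat.apply_of_le {O : X.Opens} {s : ∀ i, Γ(D.N i, D.U i ⊓ O)} (hs : D.IsCompat O s)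
    (i j : D.ι) (W : X.Opens) (hW : W ≤ D.U i ⊓ D.U j)
    (k1 : W ⟶ D.U i ⊓ O) (k2 : W ⟶ D.U j ⊓ O) :
    (D.φ i j).app W hW ((D.N i).presheaf.map k1.op (s i)) =
      (D.N j).presheaf.map k2.op (s j) := by
  have hWO : W ≤ D.U i ⊓ D.U j ⊓ O := le_inf hW (k1.le.trans inf_le_right)
  have h1 := congrArg ((D.N j).presheaf.map (homOfLE hWO).op) (hs i j)
  rw [← LocHom.naturality_apply, map_map_apply _ _ _ k1, map_map_apply _ _ _ k2] at h1
  exact h1

/-- componentwise restriction of families -/
def resFun {O O' : X.Opens} (h : O' ≤ O) (s : ∀ i, Γ(D.N i, D.U i ⊓ O)) :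
    ∀ i, Γ(D.N i, D.U i ⊓ O') :=
  fun i => (D.N i).presheaf.map (homOfLE (inf_le_inf_left _ h)).op (s i)

lemma resFun_compat {O O' : X.Opens} (h : O' ≤ O) (s : ∀ i, Γ(D.N i, D.U i ⊓ O))
    (hs : D.IsCompat O s) : D.IsCompat O' (D.resFun h s) := by
  intro i j
  have h1 := congrArg ((D.N j).presheaf.map (homOfLE (inf_le_inf_left _ h :
    D.U i ⊓ D.U j ⊓ O' ≤ D.U i ⊓ D.U j ⊓ O)).op) (hs i j)
  rw [← LocHom.naturality_apply, map_map_apply _ _ _ (homOfLE (by
    exact (inf_le_inf_left _ h).trans (inf_le_inf_right O inf_le_left))),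
    map_map_apply _ _ _ (homOfLE (by
    exact (inf_le_inf_left _ h).trans (inf_le_inf_right O inf_le_right)))] at h1
  simp only [resFun]
  rw [map_map_apply _ _ _ (homOfLE (by
    exact (inf_le_inf_left _ h).trans (inf_le_inf_right O inf_le_left))),
    map_map_apply _ _ _ (homOfLE (by
    exact (inf_le_inf_left _ h).trans (inf_le_inf_right O inf_le_right)))]
  exact h1

/-- restriction map of the glued presheaf -/
def resHom {O O' : X.Opens} (h : O' ≤ O) : D.secSubgroup O →+ D.secSubgroup O' where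
  toFun s := ⟨D.resFun h s.1, D.resFun_compat h s.1 s.2⟩
  map_zero' := by
    apply Subtype.ext
    funext i
    simp [resFun]
  map_add' s t := by
    apply Subtype.ext
    funext i
    simp [resFun]

@[simp]
lemma resHom_apply_coe {O O' : X.Opens} (h : O' ≤ O) (s : D.secSubgroup O) (i : D.ι) :
    (D.resHom h s).1 i = (D.N i).presheaf.map (homOfLE (inf_le_inf_left _ h)).op (s.1 i) := rfl

/-- the underlying presheaf of abelian groups of the glued module -/
def abPresheaf : TopCat.Presheaf Ab X where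
  obj O := AddCommGrpCat.of (D.secSubgroup O.unop)
  map {O O'} h := AddCommGrpCat.ofHom (D.resHom h.unop.le)
  map_id O := by
    ext s i
    change (D.N i).presheaf.map _ (s.1 i) = s.1 i
    have : (homOfLE (inf_le_inf_left (D.U i) (le_refl O.unop))).op = 𝟙 (op (D.U i ⊓ O.unop)) := rfl
    rw [this, CategoryTheory.Functor.map_id]
    rfl
  map_comp {O O' O''} h h' := by
    ext s i
    change (D.N i).presheaf.map _ (s.1 i) =
      (D.N i).presheaf.map _ ((D.N i).presheaf.map _ (s.1 i))
    rw [map_map_apply]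

lemma ring_map_map_apply {W W' W'' : X.Opens} (i : W' ⟶ W) (j : W'' ⟶ W') (k : W'' ⟶ W)
    (r : Γ(X, W)) :
    X.presheaf.map j.op (X.presheaf.map i.op r) = X.presheaf.map k.op r := by
  rw [← CommRingCat.comp_apply, ← Functor.map_comp]
  rfl

/-- scalar multiplication on families -/
def smulFun (O : X.Opens) (r : Γ(X, O)) (s : ∀ i, Γ(D.N i, D.U i ⊓ O)) :
    ∀ i, Γ(D.N i, D.U i ⊓ O) :=
  fun i => (X.presheaf.map (homOfLE (inf_le_right : D.U i ⊓ O ≤ O)).op r) • s i

lemma smulFun_compat (O : X.Opens) (r : Γ(X, O)) (s : ∀ i, Γ(D.N i, D.U i ⊓ O))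
    (hs : D.IsCompat O s) : D.IsCompat O (D.smulFun O r s) := by
  intro i j
  simp only [smulFun]
  rw [Scheme.Modules.map_smul, Scheme.Modules.map_smul, LocHom.map_smul, hs i j,
    ring_map_map_apply _ _ (homOfLE inf_le_right), ring_map_map_apply _ _ (homOfLE inf_le_right)]

instance (O : X.Opens) : SMul Γ(X, O) (D.secSubgroup O) where
  smul r s := ⟨D.smulFun O r s.1, D.smulFun_compat O r s.1 s.2⟩

lemma smul_coe (O : X.Opens) (r : Γ(X, O)) (s : D.secSubgroup O) (i : D.ι) :
    (r • s).1 i = (X.presheaf.map (homOfLE (inf_le_right : D.U i ⊓ O ≤ O)).op r) • s.1 i := rfl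

instance (O : X.Opens) : Module Γ(X, O) (D.secSubgroup O) where
  one_smul s := by
    apply Subtype.ext; funext i
    rw [smul_coe, map_one, one_smul]
  mul_smul r r' s := by
    apply Subtype.ext; funext i
    rw [smul_coe, map_mul, mul_smul]; rfl
  smul_zero r := by
    apply Subtype.ext; funext i
    rw [smul_coe]; exact smul_zero _
  smul_add r s t := by
    apply Subtype.ext; funext i
    rw [smul_coe]; exact smul_add _ _ _
  add_smul r r' s := by
    apply Subtype.ext; funext i
    rw [smul_coe, map_add, add_smul]; rfl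
  zero_smul s := by
    apply Subtype.ext; funext i
    rw [smul_coe, map_zero, zero_smul]; rfl

instance (O : (Opens X)ᵒᵖ) : Module (X.ringCatSheaf.obj.obj O) (D.abPresheaf.obj O) :=
  inferInstanceAs (Module Γ(X, O.unop) (D.secSubgroup O.unop))

/-- the glued presheaf of modules -/
def presheafOfModules : PresheafOfModules X.ringCatSheaf.obj :=
  PresheafOfModules.ofPresheaf D.abPresheaf (by
    intro O O' h r s
    apply Subtype.ext; funext i
    change (D.N i).presheaf.map _ ((X.presheaf.map _ (r : Γ(X, O.unop))) • s.1 i) =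
      (X.presheaf.map _ (X.presheaf.map h (r : Γ(X, O.unop)))) • (D.N i).presheaf.map _ (s.1 i)
    rw [Scheme.Modules.map_smul]
    congr 1
    exact (ring_map_map_apply _ _ (homOfLE (inf_le_right.trans h.unop.le)) _).trans
      (ring_map_map_apply h.unop _ _ _).symm)

section sheaf

variable {α : Type u} (V : α → X.Opens) (sf : ∀ a, D.secSubgroup (V a))
  (hsf : TopCat.Presheaf.IsCompatible D.abPresheaf V sf)

include hsf in
lemma sheaf_aux_compat (i : D.ι) :
    TopCat.Presheaf.IsCompatible (toSheaf (D.N i)).1 (fun a => D.U i ⊓ V a)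
      (fun a => (sf a).1 i) := by
  intro a b
  have h1 := congrArg (fun t : D.secSubgroup (V a ⊓ V b) => t.1 i) (hsf a b)
  replace h1 := congrArg ((D.N i).presheaf.map (homOfLE (by
    exact le_inf (inf_le_left.trans inf_le_left) (inf_le_inf inf_le_right inf_le_right) :
      (D.U i ⊓ V a) ⊓ (D.U i ⊓ V b) ≤ D.U i ⊓ (V a ⊓ V b))).op) h1
  change (D.N i).presheaf.map _ ((D.N i).presheaf.map _ ((sf a).1 i)) =
    (D.N i).presheaf.map _ ((D.N i).presheaf.map _ ((sf b).1 i)) at h1
  rw [map_map_apply _ _ _ (homOfLE inf_le_left), map_map_apply _ _ _ (homOfLE inf_le_right)] at h1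
  exact h1

/-- the glued components of a compatible family of sections of the glued presheaf -/
def sheafGlueFun (i : D.ι) : Γ(D.N i, D.U i ⊓ iSup V) :=
  ((toSheaf (D.N i)).existsUnique_gluing' (fun a => D.U i ⊓ V a) (D.U i ⊓ iSup V)
    (fun a => homOfLE (inf_le_inf_left _ (le_iSup V a))) (by rw [inf_iSup_eq]) _
    (D.sheaf_aux_compat V sf hsf i)).exists.choose

lemma sheafGlueFun_spec (i : D.ι) (a : α) :
    (D.N i).presheaf.map (homOfLE (inf_le_inf_left _ (le_iSup V a) :
      D.U i ⊓ V a ≤ D.U i ⊓ iSup V)).op (D.sheafGlueFun V sf hsf i) = (sf a).1 i :=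
  ((toSheaf (D.N i)).existsUnique_gluing' (fun a => D.U i ⊓ V a) (D.U i ⊓ iSup V)
    (fun a => homOfLE (inf_le_inf_left _ (le_iSup V a))) (by rw [inf_iSup_eq]) _
    (D.sheaf_aux_compat V sf hsf i)).exists.choose_spec a

lemma sheafGlueFun_compat : D.IsCompat (iSup V) (D.sheafGlueFun V sf hsf) := by
  intro i j
  have hcover : D.U i ⊓ D.U j ⊓ iSup V ≤ ⨆ a, (D.U i ⊓ D.U j ⊓ iSup V) ⊓ V a := by
    refine le_trans (le_of_eq (inf_iSup_eq _ _)) (iSup_mono fun a => ?_)
    exact le_inf (inf_le_inf_left _ (le_iSup V a)) inf_le_right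
  refine (toSheaf (D.N j)).eq_of_locally_eq' (fun a => (D.U i ⊓ D.U j ⊓ iSup V) ⊓ V a)
    _ (fun a => homOfLE inf_le_left) hcover _ _ (fun a => ?_)
  change (D.N j).presheaf.map _ _ = (D.N j).presheaf.map _ _
  have hi : (D.U i ⊓ D.U j ⊓ iSup V) ⊓ V a ≤ D.U i ⊓ V a :=
    le_inf (inf_le_left.trans (inf_le_left.trans inf_le_left)) inf_le_right
  have hj : (D.U i ⊓ D.U j ⊓ iSup V) ⊓ V a ≤ D.U j ⊓ V a :=
    le_inf (inf_le_left.trans (inf_le_left.trans inf_le_right)) inf_le_right
  rw [← LocHom.naturality_apply, map_map_apply _ _ _ (homOfLE (hi.trans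
      (inf_le_inf_left _ (le_iSup V a)))),
    map_map_apply _ _ _ (homOfLE (hj.trans (inf_le_inf_left _ (le_iSup V a)))),
    ← map_map_apply _ (homOfLE (inf_le_inf_left _ (le_iSup V a))) (homOfLE hi),
    ← map_map_apply _ (homOfLE (inf_le_inf_left _ (le_iSup V a))) (homOfLE hj),
    sheafGlueFun_spec, sheafGlueFun_spec]
  exact (sf a).2.apply_of_le D i j _ _ _ _

end sheaf

lemma abPresheaf_isSheaf : D.abPresheaf.IsSheaf := by
  rw [TopCat.Presheaf.isSheaf_iff_isSheafUniqueGluing]
  intro α V sf hsf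
  refine ⟨⟨D.sheafGlueFun V sf hsf, D.sheafGlueFun_compat V sf hsf⟩, ?_, ?_⟩
  · intro a
    apply Subtype.ext; funext i
    exact D.sheafGlueFun_spec V sf hsf i a
  · intro t ht
    apply Subtype.ext; funext i
    refine (toSheaf (D.N i)).eq_of_locally_eq' (fun a => D.U i ⊓ V a) _
      (fun a => homOfLE (inf_le_inf_left _ (le_iSup V a))) (by rw [inf_iSup_eq]) _ _ (fun a => ?_)
    refine Eq.trans ?_ (D.sheafGlueFun_spec V sf hsf i a).symm
    exact congrArg (fun t : D.secSubgroup (V a) => t.1 i) (ht a)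

/-- **The glued module.** -/
def glued : X.Modules where
  val := D.presheafOfModules
  isSheaf := D.abPresheaf_isSheaf

lemma glued_presheaf : D.glued.presheaf = D.abPresheaf := rfl

/-- the projection `glued|_{U k} ⟶ N k|_{U k}` on sections -/
def projFun (k : D.ι) (W : X.Opens) (hW : W ≤ D.U k) : D.secSubgroup W →+ Γ(D.N k, W) where
  toFun s := (D.N k).presheaf.map (homOfLE (le_inf hW le_rfl : W ≤ D.U k ⊓ W)).op (s.1 k)
  map_zero' := by simp
  map_add' s t := by simp

/-- the projection `glued|_{U k} ⟶ N k|_{U k}` -/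
def proj (k : D.ι) : LocHom (D.U k) D.glued (D.N k) where
  app W hW := AddCommGrpCat.ofHom (D.projFun k W hW)
  naturality {W W'} i hW := by
    ext s
    change (D.N k).presheaf.map _ ((D.N k).presheaf.map _ (s.1 k)) =
      (D.N k).presheaf.map _ ((D.N k).presheaf.map _ (s.1 k))
    rw [map_map_apply _ _ _ (homOfLE (le_inf (i.le.trans hW) i.le)), map_map_apply]
  map_smul W hW r s := by
    change (D.N k).presheaf.map _ ((X.presheaf.map _ r) • (s.1 k)) =
      r • (D.N k).presheaf.map _ (s.1 k)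
    rw [Scheme.Modules.map_smul, ring_map_map_apply _ _ (𝟙 W)]
    simp

/-- the family of sections attached to a section of `N k` over `W ≤ U k` -/
def liftFam (k : D.ι) (W : X.Opens) (hW : W ≤ D.U k) (t : Γ(D.N k, W)) :
    ∀ i, Γ(D.N i, D.U i ⊓ W) :=
  fun i => (D.φ k i).app (D.U i ⊓ W) (le_inf (inf_le_right.trans hW) inf_le_left)
    ((D.N k).presheaf.map (homOfLE (inf_le_right : D.U i ⊓ W ≤ W)).op t)

lemma liftFam_compat (k : D.ι) (W : X.Opens) (hW : W ≤ D.U k) (t : Γ(D.N k, W)) :
    D.IsCompat W (D.liftFam k W hW t) := by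
  intro i j
  simp only [liftFam]
  rw [← LocHom.naturality_apply, ← LocHom.naturality_apply,
    map_map_apply _ _ _ (homOfLE (inf_le_right : D.U i ⊓ D.U j ⊓ W ≤ W)),
    map_map_apply _ _ _ (homOfLE (inf_le_right : D.U i ⊓ D.U j ⊓ W ≤ W))]
  exact D.cocycle_apply k i j _ (inf_le_right.trans hW) (inf_le_left.trans inf_le_left)
    (inf_le_left.trans inf_le_right) _

/-- the inverse of the projection on sections -/
def liftFun (k : D.ι) (W : X.Opens) (hW : W ≤ D.U k) : Γ(D.N k, W) →+ D.secSubgroup W where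
  toFun t := ⟨D.liftFam k W hW t, D.liftFam_compat k W hW t⟩
  map_zero' := by
    apply Subtype.ext; funext i
    simp [liftFam]
  map_add' s t := by
    apply Subtype.ext; funext i
    simp [liftFam]

/-- the inverse `N k|_{U k} ⟶ glued|_{U k}` of the projection -/
def lift (k : D.ι) : LocHom (D.U k) (D.N k) D.glued where
  app W hW := AddCommGrpCat.ofHom (D.liftFun k W hW)
  naturality {W W'} i hW := by
    ext t
    apply Subtype.ext; funext j
    change (D.φ k j).app _ _ ((D.N k).presheaf.map _ ((D.N k).presheaf.map _ t)) =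
      (D.N j).presheaf.map _ ((D.φ k j).app _ _ ((D.N k).presheaf.map _ t))
    rw [← LocHom.naturality_apply, map_map_apply _ _ _ (homOfLE (inf_le_right.trans i.le)),
      map_map_apply]
  map_smul W hW r t := by
    apply Subtype.ext; funext j
    change (D.φ k j).app _ _ ((D.N k).presheaf.map _ (r • t)) =
      (X.presheaf.map _ r) • (D.φ k j).app _ _ ((D.N k).presheaf.map _ t)
    rw [Scheme.Modules.map_smul, LocHom.map_smul]

lemma lift_proj (k : D.ι) : (D.lift k).comp (D.proj k) = LocHom.id _ _ := by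
  ext W hW t
  change (D.N k).presheaf.map _ ((D.φ k k).app _ _ ((D.N k).presheaf.map _ t)) = t
  rw [D.φ_self]
  change (D.N k).presheaf.map _ ((D.N k).presheaf.map _ t) = t
  rw [map_map_apply _ _ _ (𝟙 W)]
  simp

lemma proj_lift (k : D.ι) : (D.proj k).comp (D.lift k) = LocHom.id _ _ := by
  ext W hW s
  apply Subtype.ext; funext j
  change (D.φ k j).app _ _ ((D.N k).presheaf.map _ ((D.N k).presheaf.map _ (s.1 k))) = s.1 j
  rw [map_map_apply _ _ _ (homOfLE (le_inf (inf_le_right.trans hW) inf_le_right)),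
    s.2.apply_of_le D k j _ _ _ (𝟙 _)]
  simp

/-- compatibility of the projections with the transition maps -/
lemma proj_comp_φ (i j : D.ι) :
    ((D.proj i).restrict inf_le_left).comp (D.φ i j) = (D.proj j).restrict inf_le_right := by
  ext W hW s
  exact s.2.apply_of_le D i j W hW _ _

end GlueData

end
end Fermat.Agent.Jac.ModGlue38
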