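import Mathlib

/-!
# Section-level morphisms between restrictions of `𝒪_X`-modules (brick M1 ModGlue, helper38)

For `A B : X.Modules` and an open `V` of `X`, `LocHom V A B` is the type of morphisms
`A|_V ⟶ B|_V`, described purely on sections over opens `W ≤ V` of `X` (no subtype schemes).
We prove that such morphisms glue along open covers (`LocHom.glue`), and that
`LocHom ⊤ A B ≃ (A ⟶ B)`.
-/

set_option autoImplicit false

universe u

open CategoryTheory AlgebraicGeometry TopologicalSpace Opposite

namespace Fermat.Agent.Jac.ModGlue38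

noncomputable section

variable {X : Scheme.{u}}

/-- A morphism `A|_V ⟶ B|_V` of `𝒪`-modules, described on sections over opens `W ≤ V`. -/
structure LocHom (V : X.Opens) (A B : X.Modules) where
  /-- the map on sections over `W ≤ V` -/
  app (W : X.Opens) (hW : W ≤ V) : Γ(A, W) ⟶ Γ(B, W)
  naturality {W W' : X.Opens} (i : W' ⟶ W) (hW : W ≤ V) :
    A.presheaf.map i.op ≫ app W' (i.le.trans hW) = app W hW ≫ B.presheaf.map i.op
  map_smul (W : X.Opens) (hW : W ≤ V) (r : Γ(X, W)) (s : Γ(A, W)) :
    app W hW (r • s) = r • app W hW s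

namespace LocHom

variable {V : X.Opens} {A B C : X.Modules}

@[ext]
lemma ext {f g : LocHom V A B} (h : ∀ W hW, f.app W hW = g.app W hW) : f = g := by
  cases f; cases g; congr; funext W hW; exact h W hW

lemma naturality_apply (f : LocHom V A B) {W W' : X.Opens} (i : W' ⟶ W) (hW : W ≤ V)
    (s : Γ(A, W)) :
    f.app W' (i.le.trans hW) (A.presheaf.map i.op s) = B.presheaf.map i.op (f.app W hW s) :=
  ConcreteCategory.congr_hom (f.naturality i hW) s

/-- The identity. -/
@[simps]
def id (V : X.Opens) (A : X.Modules) : LocHom V A A where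
  app _ _ := 𝟙 _
  naturality _ _ := by simp
  map_smul _ _ _ _ := rfl

/-- Composition. -/
@[simps]
def comp (f : LocHom V A B) (g : LocHom V B C) : LocHom V A C where
  app W hW := f.app W hW ≫ g.app W hW
  naturality i hW := by
    rw [← Category.assoc, f.naturality i hW, Category.assoc, g.naturality i hW, Category.assoc]
  map_smul W hW r s := by
    simp [f.map_smul, g.map_smul]

/-- Restriction to a smaller open. -/
@[simps]
def restrict (f : LocHom V A B) {V' : X.Opens} (h : V' ≤ V) : LocHom V' A B where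
  app W hW := f.app W (hW.trans h)
  naturality i hW := f.naturality i (hW.trans h)
  map_smul W hW := f.map_smul W (hW.trans h)

/-- A global morphism induces a local one. -/
@[simps]
def ofHom (V : X.Opens) (φ : A ⟶ B) : LocHom V A B where
  app W _ := φ.app W
  naturality i _ := (φ.mapPresheaf.naturality i.op)
  map_smul _ _ r s := φ.app_smul r s

end LocHom

/-- the sheaf of abelian groups underlying a module -/
def toSheaf (B : X.Modules) : TopCat.Sheaf Ab X := ⟨B.presheaf, B.isSheaf⟩

variable {ι : Type u} (U : ι → X.Opens) {A B : X.Modules}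

/-- unique gluing of sections of a module over `W ≤ ⨆ U i` from sections on `W ⊓ U i`. -/
lemma existsUnique_glue_sections (B : X.Modules) (W : X.Opens) (hW : W ≤ ⨆ i, U i)
    (t : ∀ i, Γ(B, W ⊓ U i))
    (ht : ∀ i j, B.presheaf.map (homOfLE (inf_le_left : (W ⊓ U i) ⊓ (W ⊓ U j) ≤ W ⊓ U i)).op (t i) =
      B.presheaf.map (homOfLE (inf_le_right : (W ⊓ U i) ⊓ (W ⊓ U j) ≤ W ⊓ U j)).op (t j)) :
    ∃! s : Γ(B, W), ∀ i, B.presheaf.map (homOfLE (inf_le_left : W ⊓ U i ≤ W)).op s = t i := by
  have hcover : W ≤ ⨆ i, W ⊓ U i := by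
    rw [← inf_iSup_eq]; exact le_inf le_rfl hW
  exact (toSheaf B).existsUnique_gluing' (fun i => W ⊓ U i) W (fun i => homOfLE inf_le_left) hcover t ht

lemma sections_ext (B : X.Modules) (W : X.Opens) (hW : W ≤ ⨆ i, U i) (s t : Γ(B, W))
    (h : ∀ i, B.presheaf.map (homOfLE (inf_le_left : W ⊓ U i ≤ W)).op s =
      B.presheaf.map (homOfLE (inf_le_left : W ⊓ U i ≤ W)).op t) : s = t := by
  have hcover : W ≤ ⨆ i, W ⊓ U i := by
    rw [← inf_iSup_eq]; exact le_inf le_rfl hW
  exact (toSheaf B).eq_of_locally_eq' (fun i => W ⊓ U i) W (fun i => homOfLE inf_le_left) hcover s t h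

lemma map_map_apply (B : X.Modules) {W W' W'' : X.Opens} (i : W' ⟶ W) (j : W'' ⟶ W') (k : W'' ⟶ W)
    (s : Γ(B, W)) :
    B.presheaf.map j.op (B.presheaf.map i.op s) = B.presheaf.map k.op s := by
  rw [← ConcreteCategory.comp_apply, ← Functor.map_comp]
  rfl

variable (f : ∀ i, LocHom (U i) A B)

/-- compatibility of a family of local morphisms on overlaps -/
def LocHom.Compatible : Prop :=
  ∀ i j (W : X.Opens) (hi : W ≤ U i) (hj : W ≤ U j), (f i).app W hi = (f j).app W hj

variable {U f} (hf : LocHom.Compatible U f)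

include hf in
lemma glue_aux_compat (W : X.Opens) (s : Γ(A, W)) (i j : ι) :
    B.presheaf.map (homOfLE (inf_le_left : (W ⊓ U i) ⊓ (W ⊓ U j) ≤ W ⊓ U i)).op
      ((f i).app (W ⊓ U i) inf_le_right (A.presheaf.map (homOfLE inf_le_left).op s)) =
    B.presheaf.map (homOfLE (inf_le_right : (W ⊓ U i) ⊓ (W ⊓ U j) ≤ W ⊓ U j)).op
      ((f j).app (W ⊓ U j) inf_le_right (A.presheaf.map (homOfLE inf_le_left).op s)) := by
  rw [← LocHom.naturality_apply, ← LocHom.naturality_apply, map_map_apply, map_map_apply,
    hf i j _ _ (inf_le_right.trans inf_le_right)]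
  exact homOfLE (inf_le_left.trans inf_le_left)

/-- the glued map on sections -/
def glueFun (W : X.Opens) (hW : W ≤ ⨆ i, U i) (s : Γ(A, W)) : Γ(B, W) :=
  (existsUnique_glue_sections U B W hW _ (glue_aux_compat hf W s)).exists.choose

lemma glueFun_spec (W : X.Opens) (hW : W ≤ ⨆ i, U i) (s : Γ(A, W)) (i : ι) :
    B.presheaf.map (homOfLE (inf_le_left : W ⊓ U i ≤ W)).op (glueFun hf W hW s) =
      (f i).app (W ⊓ U i) inf_le_right (A.presheaf.map (homOfLE inf_le_left).op s) :=
  (existsUnique_glue_sections U B W hW _ (glue_aux_compat hf W s)).exists.choose_spec i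

lemma glueFun_eq_iff (W : X.Opens) (hW : W ≤ ⨆ i, U i) (s : Γ(A, W)) (t : Γ(B, W)) :
    glueFun hf W hW s = t ↔ ∀ i, B.presheaf.map (homOfLE (inf_le_left : W ⊓ U i ≤ W)).op t =
      (f i).app (W ⊓ U i) inf_le_right (A.presheaf.map (homOfLE inf_le_left).op s) := by
  constructor
  · rintro rfl i; exact glueFun_spec hf W hW s i
  · intro h
    apply sections_ext U B W hW
    intro i
    rw [glueFun_spec, h]

/-- restriction of the glued map to any open contained in `U i` -/
lemma glueFun_restrict (W : X.Opens) (hW : W ≤ ⨆ i, U i) (s : Γ(A, W)) (i : ι) (W' : X.Opens)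
    (j : W' ⟶ W) (hi : W' ≤ U i) :
    B.presheaf.map j.op (glueFun hf W hW s) = (f i).app W' hi (A.presheaf.map j.op s) := by
  have h1 := congrArg (B.presheaf.map (homOfLE (le_inf j.le hi : W' ≤ W ⊓ U i)).op)
    (glueFun_spec hf W hW s i)
  rw [map_map_apply _ _ _ j, ← LocHom.naturality_apply, map_map_apply _ _ _ j] at h1
  exact h1

lemma glueFun_add (W : X.Opens) (hW : W ≤ ⨆ i, U i) (s s' : Γ(A, W)) :
    glueFun hf W hW (s + s') = glueFun hf W hW s + glueFun hf W hW s' := by
  rw [glueFun_eq_iff]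
  intro i
  rw [map_add, map_add, map_add, glueFun_spec, glueFun_spec]

lemma glueFun_naturality {W W' : X.Opens} (j : W' ⟶ W) (hW : W ≤ ⨆ i, U i) (s : Γ(A, W)) :
    glueFun hf W' (j.le.trans hW) (A.presheaf.map j.op s) =
      B.presheaf.map j.op (glueFun hf W hW s) := by
  rw [glueFun_eq_iff]
  intro i
  rw [map_map_apply _ _ _ (homOfLE (inf_le_left.trans j.le)),
    glueFun_restrict hf W hW s i _ _ inf_le_right, map_map_apply]

lemma glueFun_smul (W : X.Opens) (hW : W ≤ ⨆ i, U i) (r : Γ(X, W)) (s : Γ(A, W)) :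
    glueFun hf W hW (r • s) = r • glueFun hf W hW s := by
  rw [glueFun_eq_iff]
  intro i
  rw [Scheme.Modules.map_smul, Scheme.Modules.map_smul, glueFun_spec, (f i).map_smul]

/-- **Gluing of morphisms**: a compatible family of local morphisms on the opens `U i` glues to
a local morphism on `⨆ i, U i`. -/
def LocHom.glue : LocHom (⨆ i, U i) A B where
  app W hW := AddCommGrpCat.ofHom (AddMonoidHom.mk' (glueFun hf W hW) (glueFun_add hf W hW))
  naturality j hW := by
    ext s
    exact glueFun_naturality hf j hW s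
  map_smul W hW r s := glueFun_smul hf W hW r s

lemma LocHom.glue_restrict (i : ι) :
    (LocHom.glue hf).restrict (le_iSup U i) = f i := by
  ext W hW s
  have := glueFun_restrict hf W (hW.trans (le_iSup U i)) s i W (𝟙 W) hW
  simp only [op_id, CategoryTheory.Functor.map_id, AddCommGrpCat.hom_id, AddMonoidHom.id_apply] at this
  exact this

lemma LocHom.eq_glue (g : LocHom (⨆ i, U i) A B) (hg : ∀ i, g.restrict (le_iSup U i) = f i) :
    g = LocHom.glue hf := by
  ext W hW s
  symm
  refine (glueFun_eq_iff hf W hW s _).2 (fun i => ?_)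
  rw [← hg i, ← LocHom.naturality_apply]
  rfl

end

end Fermat.Agent.Jac.ModGlue38
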