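import Fermat.Agent.Jac.ModGlue38.PBTrans

/-!
# Effective descent of `𝒪`-modules along open immersions, pullback form (brick M1b, helper38)

`PBDescent g`: descent data relative to a family `g i : Y i ⟶ X` in terms of the functors
`Scheme.Modules.pullback` (unfolded form of Mathlib's `Pseudofunctor.DescentData`).
For open immersions `g i`: `PBDescent.glued : X.Modules`,
`PBDescent.gluedIso i : (pullback (g i)).obj D.glued ≅ D.M i` and the compatibility
`PBDescent.gluedIso_comm` with the transition morphisms over any test scheme that is an open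
subscheme of `X`.
-/

set_option autoImplicit false
universe u
open CategoryTheory AlgebraicGeometry TopologicalSpace Opposite
namespace Fermat.Agent.Jac.ModGlue38
open Scheme.Modules
noncomputable section
variable {X : Scheme.{u}} {ι : Type u} {Y : ι → Scheme.{u}} (g : ∀ i, Y i ⟶ X)

/-- Descent data for `𝒪`-modules relative to a family of morphisms `g i : Y i ⟶ X`, in terms of
the pullback functors `Scheme.Modules.pullback` (an unfolded form of Mathlib's
`CategoryTheory.Pseudofunctor.DescentData` for `Scheme.Modules.pseudofunctor`). -/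
structure PBDescent where
  /-- the modules on the `Y i` -/
  M : ∀ i, (Y i).Modules
  /-- the transition morphisms over any test scheme -/
  hom : ∀ {Z : Scheme.{u}} (q : Z ⟶ X) {i j : ι} (a : Z ⟶ Y i) (b : Z ⟶ Y j),
    a ≫ g i = q → b ≫ g j = q → ((pullback a).obj (M i) ⟶ (pullback b).obj (M j))
  hom_self : ∀ {Z : Scheme.{u}} (q : Z ⟶ X) {i : ι} (a : Z ⟶ Y i) (ha : a ≫ g i = q),
    hom q a a ha ha = 𝟙 _
  hom_comp : ∀ {Z : Scheme.{u}} (q : Z ⟶ X) {i j k : ι} (a : Z ⟶ Y i) (b : Z ⟶ Y j)
    (c : Z ⟶ Y k) (ha : a ≫ g i = q) (hb : b ≫ g j = q) (hc : c ≫ g k = q),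
    hom q a b ha hb ≫ hom q b c hb hc = hom q a c ha hc
  pull_hom : ∀ {Z' Z : Scheme.{u}} (r : Z' ⟶ Z) (q : Z ⟶ X) {i j : ι} (a : Z ⟶ Y i)
    (b : Z ⟶ Y j) (ha : a ≫ g i = q) (hb : b ≫ g j = q) (q' : Z' ⟶ X) (a' : Z' ⟶ Y i)
    (b' : Z' ⟶ Y j) (_ : r ≫ q = q') (ha' : r ≫ a = a') (hb' : r ≫ b = b')
    (ha'' : a' ≫ g i = q') (hb'' : b' ≫ g j = q'),
    hom q' a' b' ha'' hb'' = (pullbackCongr ha').inv.app (M i) ≫
      (pullbackComp r a).inv.app (M i) ≫ (pullback r).map (hom q a b ha hb) ≫
      (pullbackComp r b).hom.app (M j) ≫ (pullbackCongr hb').hom.app (M j)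

variable [∀ i, IsOpenImmersion (g i)]

/-- the lift to `Y i` of the inclusion of an open of `X` contained in the range of `g i` -/
def liftTo (i : ι) (V : X.Opens) (hV : V ≤ (g i).opensRange) : V.toScheme ⟶ Y i :=
  IsOpenImmersion.lift (g i) V.ι (by
    rw [Scheme.Opens.range_ι]
    exact hV)

@[reassoc (attr := simp)]
lemma liftTo_fac (i : ι) (V : X.Opens) (hV : V ≤ (g i).opensRange) :
    liftTo g i V hV ≫ g i = V.ι :=
  IsOpenImmersion.lift_fac _ _ _

instance (i : ι) (V : X.Opens) (hV : V ≤ (g i).opensRange) :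
    IsOpenImmersion (liftTo g i V hV) := by
  have : IsOpenImmersion (liftTo g i V hV ≫ g i) := by
    rw [liftTo_fac]; infer_instance
  exact IsOpenImmersion.of_comp (liftTo g i V hV) (g i)

namespace PBDescent

variable {g} (D : PBDescent g)

/-- the pushforward to `X` of the module on `Y i` -/
def N (i : ι) : X.Modules := (pushforward (g i)).obj (D.M i)

/-- the section-level transition morphism attached to an open `V` in the overlap -/
def transOn (i j : ι) (V : X.Opens) (hV : V ≤ (g i).opensRange ⊓ (g j).opensRange) :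
    LocHom V.ι.opensRange (D.N i) (D.N j) :=
  transLoc (g i) (g j) (D.M i) (D.M j) V.ι (liftTo g i V (hV.trans inf_le_left))
    (liftTo g j V (hV.trans inf_le_right)) (liftTo_fac g i V _) (liftTo_fac g j V _)
    (D.hom V.ι _ _ (liftTo_fac g i V _) (liftTo_fac g j V _))

/-- the section-level transition morphisms -/
def φ (i j : ι) : LocHom ((g i).opensRange ⊓ (g j).opensRange) (D.N i) (D.N j) :=
  (D.transOn i j _ le_rfl).restrict (le_of_eq (Scheme.Opens.opensRange_ι _).symm)

/-- Key lemma: over any test scheme (with open immersions), the transition morphism of the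
descent datum induces the restriction of `φ i j`. -/
lemma transLoc_hom_app {Z : Scheme.{u}} (q : Z ⟶ X) {i j : ι} (a : Z ⟶ Y i) (b : Z ⟶ Y j)
    [IsOpenImmersion q] [IsOpenImmersion a] [IsOpenImmersion b]
    (ha : a ≫ g i = q) (hb : b ≫ g j = q) (W : X.Opens) (hW : W ≤ q.opensRange)
    (hW' : W ≤ (g i).opensRange ⊓ (g j).opensRange) :
    (transLoc (g i) (g j) (D.M i) (D.M j) q a b ha hb (D.hom q a b ha hb)).app W hW =
      (D.φ i j).app W hW' := by
  have hq : Set.range q.base ⊆
      Set.range ((g i).opensRange ⊓ (g j).opensRange).ι.base := by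
    rw [Scheme.Opens.range_ι]
    intro x hx
    refine ⟨?_, ?_⟩
    · rw [← ha] at hx
      obtain ⟨z, rfl⟩ := hx
      exact ⟨a z, rfl⟩
    · rw [← hb] at hx
      obtain ⟨z, rfl⟩ := hx
      exact ⟨b z, rfl⟩
  let r : Z ⟶ ((g i).opensRange ⊓ (g j).opensRange).toScheme :=
    IsOpenImmersion.lift ((g i).opensRange ⊓ (g j).opensRange).ι q hq
  have hr : r ≫ ((g i).opensRange ⊓ (g j).opensRange).ι = q := IsOpenImmersion.lift_fac _ _ _
  have : IsOpenImmersion (r ≫ ((g i).opensRange ⊓ (g j).opensRange).ι) := by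
    rw [hr]; infer_instance
  have : IsOpenImmersion r :=
    IsOpenImmersion.of_comp r ((g i).opensRange ⊓ (g j).opensRange).ι
  have hra : r ≫ liftTo g i _ (inf_le_left) = a := by
    rw [← cancel_mono (g i), Category.assoc, liftTo_fac, hr, ha]
  have hrb : r ≫ liftTo g j _ (inf_le_right) = b := by
    rw [← cancel_mono (g j), Category.assoc, liftTo_fac, hr, hb]
  exact transLoc_pull (g i) (g j) (D.M i) (D.M j) _ _ _ (liftTo_fac g i _ _) (liftTo_fac g j _ _)
    r _ q a b hr hra hrb ha hb _
    (D.pull_hom r _ _ _ (liftTo_fac g i _ _) (liftTo_fac g j _ _) q a b hr hra hrb ha hb) W hW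

lemma φ_self (i : ι) (W : X.Opens) (hW : W ≤ (g i).opensRange ⊓ (g i).opensRange) :
    (D.φ i i).app W hW = 𝟙 _ := by
  have hWi : W ≤ (g i).opensRange := hW.trans inf_le_left
  rw [← D.transLoc_hom_app W.ι (liftTo g i W hWi) (liftTo g i W hWi) (liftTo_fac g i W _)
    (liftTo_fac g i W _) W (le_of_eq (Scheme.Opens.opensRange_ι _).symm) hW, D.hom_self,
    transLoc_id]
  rfl

lemma cocycle (i j k : ι) (W : X.Opens) (hi : W ≤ (g i).opensRange) (hj : W ≤ (g j).opensRange)
    (hk : W ≤ (g k).opensRange) :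
    (D.φ i j).app W (le_inf hi hj) ≫ (D.φ j k).app W (le_inf hj hk) =
      (D.φ i k).app W (le_inf hi hk) := by
  have hWW : W ≤ W.ι.opensRange := le_of_eq (Scheme.Opens.opensRange_ι _).symm
  rw [← D.transLoc_hom_app W.ι (liftTo g i W hi) (liftTo g j W hj) (liftTo_fac g i W _)
      (liftTo_fac g j W _) W hWW (le_inf hi hj),
    ← D.transLoc_hom_app W.ι (liftTo g j W hj) (liftTo g k W hk) (liftTo_fac g j W _)
      (liftTo_fac g k W _) W hWW (le_inf hj hk),
    ← D.transLoc_hom_app W.ι (liftTo g i W hi) (liftTo g k W hk) (liftTo_fac g i W _)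
      (liftTo_fac g k W _) W hWW (le_inf hi hk),
    ← D.hom_comp W.ι (liftTo g i W hi) (liftTo g j W hj) (liftTo g k W hk) (liftTo_fac g i W _)
      (liftTo_fac g j W _) (liftTo_fac g k W _),
    transLoc_comp (g i) (g j) (g k) (D.M i) (D.M j) (D.M k) W.ι _ _ _ (liftTo_fac g i W _)
      (liftTo_fac g j W _) (liftTo_fac g k W _)]
  rfl

/-- the section-level gluing data attached to a descent datum -/
abbrev glueData : GlueData X where
  ι := ι
  U i := (g i).opensRange
  N := D.N
  φ := D.φ
  φ_self := D.φ_self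
  cocycle := D.cocycle

/-- **The glued module** of a descent datum along a family of open immersions. -/
abbrev glued : X.Modules := D.glueData.glued

/-- the isomorphism between the pullback of the glued module to `Y i` and `M i` -/
def gluedIso (i : ι) : (pullback (g i)).obj D.glued ≅ D.M i :=
  ((restrictFunctorIsoPullback (g i)).app D.glued).symm ≪≫
    D.glueData.restrictIso (g i) i (le_refl (D.glueData.U i)) ≪≫
    (restrictFunctorAdjCounitIso (g i)).app (D.M i)

lemma opensRange_le_U {Z : Scheme.{u}} (q : Z ⟶ X) {i : ι} (a : Z ⟶ Y i)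
    [IsOpenImmersion q] [IsOpenImmersion a] (ea : a ≫ g i = q) :
    q.opensRange ≤ D.glueData.U i := by
  subst ea
  exact opensRange_comp_le a (g i)

open Fermat.Agent.Jac.ModGlue88 in
/-- the pullback of `gluedIso i` to a test scheme, in terms of the projection of the glued
module -/
lemma pullback_map_gluedIso_hom {Z : Scheme.{u}} (q : Z ⟶ X) {i : ι} (a : Z ⟶ Y i)
    [IsOpenImmersion q] [IsOpenImmersion a] (ea : a ≫ g i = q) :
    (pullback a).map (D.gluedIso i).hom =
      (pullbackComp a (g i)).hom.app D.glued ≫ (pullbackCongr ea).hom.app D.glued ≫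
        (restrictFunctorIsoPullback q).inv.app D.glued ≫
        LocHom.toRestrict q (D.opensRange_le_U q a ea) (D.glueData.proj i) ≫
        (beta a (g i) q ea (D.M i)).hom ≫ (restrictFunctorIsoPullback a).hom.app (D.M i) := by
  subst ea
  have h0 : (pullbackCongr (rfl : a ≫ g i = a ≫ g i)).hom.app D.glued = 𝟙 _ :=
    pullbackCongr_rfl_hom_app _ _
  have n := (restrictFunctorIsoPullback a).hom.naturality (D.gluedIso i).hom
  have hR := resR_toRestrict a (g i) (le_refl (D.glueData.U i)) (D.glueData.proj i)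
  have hC' := pullbackComp_hom_comp_rho_inv a (g i) D.glued
  have hb : (beta a (g i) (a ≫ g i) rfl (D.M i)).hom =
      (restrictFunctorComp a (g i)).hom.app _ ≫
        (restrictFunctor a).map ((restrictFunctorAdjCounitIso (g i)).hom.app (D.M i)) := by
    have h1 : (restrictFunctorCongr (rfl : a ≫ g i = a ≫ g i)).inv.app
        ((pushforward (g i)).obj (D.M i)) = 𝟙 _ := by
      rw [← cancel_epi ((restrictFunctorCongr (rfl : a ≫ g i = a ≫ g i)).hom.app
        ((pushforward (g i)).obj (D.M i))), Iso.hom_inv_id_app,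
        restrictFunctorCongr_rfl_hom_app, Category.comp_id]
    simp only [beta, Iso.trans_hom, Iso.symm_hom, Iso.app_inv, Iso.app_hom, Functor.mapIso_hom,
      h1, Category.id_comp]
  rw [h0, Category.id_comp, hb, ← hR]
  simp only [resR, Category.assoc]
  rw [reassoc_of% hC']
  simp only [Iso.inv_hom_id_app_assoc]
  rw [← cancel_epi ((restrictFunctorIsoPullback a).hom.app _), ← n]
  simp only [gluedIso, Iso.trans_hom, Iso.symm_hom, Iso.app_inv, Functor.map_comp,
    Category.assoc, Iso.hom_inv_id_app_assoc, PBDescent.N]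
  rw [Iso.inv_hom_id_app_assoc]
  congr 1

lemma opensRange_le_inf {Z : Scheme.{u}} (q : Z ⟶ X) {i j : ι} (a : Z ⟶ Y i) (b : Z ⟶ Y j)
    [IsOpenImmersion q] [IsOpenImmersion a] [IsOpenImmersion b]
    (ha : a ≫ g i = q) (hb : b ≫ g j = q) :
    q.opensRange ≤ D.glueData.U i ⊓ D.glueData.U j :=
  le_inf (D.opensRange_le_U q a ha) (D.opensRange_le_U q b hb)

/-- the transition morphism over a test scheme, in restriction form, is the restriction of the
section-level transition morphism -/
lemma transRestrict_hom {Z : Scheme.{u}} (q : Z ⟶ X) {i j : ι} (a : Z ⟶ Y i) (b : Z ⟶ Y j)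
    [IsOpenImmersion q] [IsOpenImmersion a] [IsOpenImmersion b]
    (ha : a ≫ g i = q) (hb : b ≫ g j = q) :
    transRestrict (g i) (g j) (D.M i) (D.M j) q a b ha hb (D.hom q a b ha hb) =
      LocHom.toRestrict q (D.opensRange_le_inf q a b ha hb) (D.glueData.φ i j) := by
  have h : LocHom.ofRestrict q
      (transRestrict (g i) (g j) (D.M i) (D.M j) q a b ha hb (D.hom q a b ha hb)) =
      (D.glueData.φ i j).restrict (D.opensRange_le_inf q a b ha hb) :=
    LocHom.ext (fun W hW =>
      D.transLoc_hom_app q a b ha hb W hW (hW.trans (D.opensRange_le_inf q a b ha hb)))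
  have h2 := congrArg (LocHom.toRestrict q le_rfl) h
  rw [LocHom.toRestrict_ofRestrict] at h2
  exact h2.trans (LocHom.toRestrict_restrict q le_rfl _ _)

lemma comp_aux {C : Type*} [Category C] {A B B₁ B₂ C₀ C₁ C₂ : C} (P : A ⟶ B) (β : B ⟶ B₁)
    (ρ : B₁ ⟶ B₂) (θ : B₂ ⟶ C₂) (ρb : C₁ ≅ C₂) (βb : C₀ ≅ C₁) :
    P ≫ ((β ≫ ρ) ≫ θ) = (P ≫ β ≫ ρ ≫ θ ≫ ρb.inv ≫ βb.inv) ≫ βb.hom ≫ ρb.hom := by
  simp

lemma pullbackCongr_trans_hom_app {Z : Scheme.{u}} {f₁ f₂ f₃ : Z ⟶ X} (h₁ : f₁ = f₂)
    (h₂ : f₂ = f₃) (L : X.Modules) :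
    (pullbackCongr h₁).hom.app L ≫ (pullbackCongr h₂).hom.app L =
      (pullbackCongr (h₁.trans h₂)).hom.app L := by
  subst h₁ h₂
  simp [pullbackCongr]

/-- **Compatibility** of the isomorphisms `gluedIso` with the transition morphisms of the
descent datum, over any test scheme mapping to `X` by an open immersion. -/
theorem gluedIso_comm {Z : Scheme.{u}} (q : Z ⟶ X) {i j : ι} (a : Z ⟶ Y i) (b : Z ⟶ Y j)
    [IsOpenImmersion q] [IsOpenImmersion a] [IsOpenImmersion b]
    (ha : a ≫ g i = q) (hb : b ≫ g j = q) :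
    (pullback a).map (D.gluedIso i).hom ≫ D.hom q a b ha hb =
      (pullbackComp a (g i)).hom.app D.glued ≫
        (pullbackCongr (ha.trans hb.symm)).hom.app D.glued ≫
        (pullbackComp b (g j)).inv.app D.glued ≫ (pullback b).map (D.gluedIso j).hom := by
  rw [D.pullback_map_gluedIso_hom q a ha, D.pullback_map_gluedIso_hom q b hb]
  simp only [Category.assoc, Iso.inv_hom_id_app_assoc]
  rw [reassoc_of% (pullbackCongr_trans_hom_app (ha.trans hb.symm) hb D.glued)]
  congr 3
  have hK := D.transRestrict_hom q a b ha hb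
  have hφ := D.glueData.restrictIso_hom_comp_φ q i j (D.opensRange_le_inf q a b ha hb)
  change LocHom.toRestrict q (D.opensRange_le_U q a ha) (D.glueData.proj i) ≫ _ =
    LocHom.toRestrict q (D.opensRange_le_U q b hb) (D.glueData.proj j) at hφ
  rw [← hφ, ← hK]
  exact comp_aux _ _ _ _ ((restrictFunctorIsoPullback b).app (D.M j))
    (beta b (g j) q hb (D.M j))

end PBDescent

end
end Fermat.Agent.Jac.ModGlue38
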