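import Fermat.Agent.Jac.ModGlue38.PBGlue
import Fermat.Agent.Jac.ModGlue88.Invertible

/-!
# Invertibility of glued modules (brick M1b, helper38)
-/

set_option autoImplicit false
universe u
open CategoryTheory AlgebraicGeometry TopologicalSpace Opposite
namespace Fermat.Agent.Jac.ModGlue38
open Scheme.Modules

variable {X : Scheme.{u}} {ι : Type u} {Y : ι → Scheme.{u}} {g : ∀ i, Y i ⟶ X}
  [∀ i, IsOpenImmersion (g i)]

/-- The glued module of a descent datum of invertible modules along an open cover is
invertible. -/
theorem PBDescent.isInvertible_glued (D : PBDescent g) (hcover : ⨆ i, (g i).opensRange = ⊤)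
    (h : ∀ i, Scheme.Modules.IsInvertible (D.M i)) : Scheme.Modules.IsInvertible D.glued :=
  Fermat.Agent.Jac.ModGlue88.isInvertible_of_openCover_pullback g hcover
    (fun i => Fermat.Agent.Jac.ModGlue88.isInvertible_of_iso (D.gluedIso i).symm (h i))

end Fermat.Agent.Jac.ModGlue38
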