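import Fermat.Agent.Jac.ModGlue38.Restrict
import Fermat.Agent.Jac.ModGlue88.PullbackCoh

/-!
# From pullback-form transition morphisms to section-level ones (brick M1b, helper38)

For open immersions `g₁ : Y₁ ⟶ X`, `g₂ : Y₂ ⟶ X`, modules `M₁`, `M₂` on `Y₁`, `Y₂`, and a test
scheme `q : Z ⟶ X` with open immersions `a : Z ⟶ Y₁`, `b : Z ⟶ Y₂`, `a ≫ g₁ = q = b ≫ g₂`, a
morphism `θ : a^* M₁ ⟶ b^* M₂` (pullback functors) induces
`transLoc θ : LocHom q.opensRange (g₁_* M₁) (g₂_* M₂)`, functorially (`transLoc_id`,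
`transLoc_comp`) and compatibly with shrinking the test scheme (`transLoc_pull`, which uses
helper88's coherence `restrictFunctorIsoPullback_comp`).
-/

set_option autoImplicit false
universe u
open CategoryTheory AlgebraicGeometry TopologicalSpace Opposite
namespace Fermat.Agent.Jac.ModGlue38
open Scheme.Modules
noncomputable section
variable {X Y Z Z' : Scheme.{u}} {A B C : X.Modules}

lemma opensRange_comp_le (r : Z' ⟶ Z) (q : Z ⟶ X) [IsOpenImmersion r] [IsOpenImmersion q] :
    (r ≫ q).opensRange ≤ q.opensRange := by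
  rw [Scheme.Hom.opensRange_comp]
  exact q.image_le_opensRange _

/-- restriction of a morphism between restrictions along a further open immersion -/
def resR (r : Z' ⟶ Z) (q : Z ⟶ X) [IsOpenImmersion r] [IsOpenImmersion q]
    (ψ : A.restrict q ⟶ B.restrict q) : A.restrict (r ≫ q) ⟶ B.restrict (r ≫ q) :=
  (restrictFunctorComp r q).hom.app A ≫ (restrictFunctor r).map ψ ≫
    (restrictFunctorComp r q).inv.app B

lemma resR_toRestrict (r : Z' ⟶ Z) (q : Z ⟶ X) [IsOpenImmersion r] [IsOpenImmersion q]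
    {V : X.Opens} (hV : q.opensRange ≤ V) (g : LocHom V A B) :
    resR r q (LocHom.toRestrict q hV g) =
      LocHom.toRestrict (r ≫ q) ((opensRange_comp_le r q).trans hV) g := by
  ext O s
  have e : (r ≫ q) ''ᵁ O = q ''ᵁ r ''ᵁ O := Scheme.Hom.comp_image r q O
  revert s
  intro (s : Γ(A, (r ≫ q) ''ᵁ O))
  change B.presheaf.map (eqToHom e).op
    (g.app (q ''ᵁ r ''ᵁ O) ((q.image_le_opensRange _).trans hV)
      (A.presheaf.map (eqToHom e.symm).op s)) = g.app ((r ≫ q) ''ᵁ O) _ s
  rw [LocHom.naturality_apply g (eqToHom e.symm) (((r ≫ q).image_le_opensRange _).trans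
    ((opensRange_comp_le r q).trans hV)), map_map_apply _ _ _ (𝟙 _)]
  simp

lemma ofRestrict_resR (r : Z' ⟶ Z) (q : Z ⟶ X) [IsOpenImmersion r] [IsOpenImmersion q]
    (ψ : A.restrict q ⟶ B.restrict q) :
    LocHom.ofRestrict (r ≫ q) (resR r q ψ) =
      (LocHom.ofRestrict q ψ).restrict (opensRange_comp_le r q) := by
  apply (LocHom.restrictEquiv (r ≫ q)).injective
  change LocHom.toRestrict (r ≫ q) le_rfl _ = LocHom.toRestrict (r ≫ q) le_rfl _
  rw [LocHom.toRestrict_ofRestrict, LocHom.toRestrict_restrict, ← resR_toRestrict r q le_rfl,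
    LocHom.toRestrict_ofRestrict]

lemma resR_id (r : Z' ⟶ Z) (q : Z ⟶ X) [IsOpenImmersion r] [IsOpenImmersion q] :
    resR r q (𝟙 (A.restrict q)) = 𝟙 _ := by
  simp [resR]

lemma resR_comp (r : Z' ⟶ Z) (q : Z ⟶ X) [IsOpenImmersion r] [IsOpenImmersion q]
    (ψ : A.restrict q ⟶ B.restrict q) (ψ' : B.restrict q ⟶ C.restrict q) :
    resR r q (ψ ≫ ψ') = resR r q ψ ≫ resR r q ψ' := by
  simp [resR]

section beta

variable (a : Z ⟶ Y) (g : Y ⟶ X) (q : Z ⟶ X) [IsOpenImmersion a] [IsOpenImmersion g]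
  [IsOpenImmersion q] (e : a ≫ g = q) (M : Y.Modules)

/-- the restriction along `q = a ≫ g` of the pushforward along `g` of `M` is the restriction of
`M` along `a`. -/
def beta : ((pushforward g).obj M).restrict q ≅ M.restrict a :=
  ((restrictFunctorCongr e).app _).symm ≪≫ (restrictFunctorComp a g).app _ ≪≫
    (restrictFunctor a).mapIso ((restrictFunctorAdjCounitIso g).app M)

include e in
lemma image_eq_of_comp (O : Z.Opens) : g ⁻¹ᵁ (q ''ᵁ O) = a ''ᵁ O := by
  subst e
  rw [Scheme.Hom.comp_image, Scheme.Hom.preimage_image_eq]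

lemma beta_hom_app (O : Z.Opens) :
    (beta a g q e M).hom.app O =
      M.presheaf.map (eqToHom (image_eq_of_comp a g q e O).symm).op := by
  subst e
  simp only [beta, Iso.trans_hom, Iso.symm_hom, Iso.app_inv, Iso.app_hom, Functor.mapIso_hom,
    Scheme.Modules.Hom.comp_app]
  change M.presheaf.map _ ≫ M.presheaf.map _ ≫ M.presheaf.map _ = M.presheaf.map _
  rw [← Functor.map_comp, ← Functor.map_comp]
  rfl

lemma beta_inv_app (O : Z.Opens) :
    (beta a g q e M).inv.app O =
      M.presheaf.map (eqToHom (image_eq_of_comp a g q e O)).op := by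
  have h := beta_hom_app a g q e M O
  have h2 : (beta a g q e M).hom.app O ≫ (beta a g q e M).inv.app O = 𝟙 _ := by
    rw [← Scheme.Modules.Hom.comp_app, Iso.hom_inv_id]; rfl
  rw [h] at h2
  have h3 : M.presheaf.map (eqToHom (image_eq_of_comp a g q e O).symm).op ≫
      M.presheaf.map (eqToHom (image_eq_of_comp a g q e O)).op = 𝟙 _ := by
    rw [← Functor.map_comp, ← op_comp, eqToHom_trans, eqToHom_refl, op_id,
      CategoryTheory.Functor.map_id]
  have : IsIso (M.presheaf.map (eqToHom (image_eq_of_comp a g q e O).symm).op) := inferInstance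
  exact (cancel_epi (M.presheaf.map (eqToHom (image_eq_of_comp a g q e O).symm).op)).1
    (h2.trans h3.symm)

lemma restrictFunctor_map_app' {A B : X.Modules} (f : Z ⟶ X) [IsOpenImmersion f] (φ : A ⟶ B)
    (O : Z.Opens) : ((restrictFunctor f).map φ).app O = φ.app (f ''ᵁ O) := rfl

/-- compatibility of `beta` with further restriction -/
lemma beta_comp (r : Z' ⟶ Z) [IsOpenImmersion r] :
    (beta (r ≫ a) g (r ≫ q) (by rw [Category.assoc, e]) M).hom ≫
        (restrictFunctorComp r a).hom.app M =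
      (restrictFunctorComp r q).hom.app ((pushforward g).obj M) ≫
        (restrictFunctor r).map (beta a g q e M).hom := by
  ext O : 1
  rw [Scheme.Modules.Hom.comp_app, Scheme.Modules.Hom.comp_app, restrictFunctor_map_app',
    beta_hom_app, beta_hom_app]
  change M.presheaf.map _ ≫ M.presheaf.map _ = M.presheaf.map _ ≫ M.presheaf.map _
  rw [← Functor.map_comp, ← Functor.map_comp]
  rfl

/-- compatibility of `beta` with further restriction, inverse form -/
lemma beta_comp_inv (r : Z' ⟶ Z) [IsOpenImmersion r] :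
    (restrictFunctorComp r a).inv.app M ≫
        (beta (r ≫ a) g (r ≫ q) (by rw [Category.assoc, e]) M).inv =
      (restrictFunctor r).map (beta a g q e M).inv ≫
        (restrictFunctorComp r q).inv.app ((pushforward g).obj M) := by
  have h := beta_comp a g q e M r
  rw [← cancel_epi ((beta (r ≫ a) g (r ≫ q) (by rw [Category.assoc, e]) M).hom ≫
    (restrictFunctorComp r a).hom.app M)]
  conv_rhs => rw [h]
  simp only [Category.assoc, Iso.hom_inv_id_app_assoc, Iso.hom_inv_id]
  rw [← Functor.map_comp_assoc, Iso.hom_inv_id, CategoryTheory.Functor.map_id, Category.id_comp,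
    Iso.hom_inv_id_app]

end beta

section coh

open Fermat.Agent.Jac.ModGlue88

variable (r : Z' ⟶ Z) (a : Z ⟶ Y) [IsOpenImmersion r] [IsOpenImmersion a] (M : Y.Modules)

/-- helper88's coherence `restrictFunctorIsoPullback_comp`, inverse form -/
lemma pullbackComp_hom_comp_rho_inv :
    (pullbackComp r a).hom.app M ≫ (restrictFunctorIsoPullback (r ≫ a)).inv.app M =
      (restrictFunctorIsoPullback r).inv.app ((pullback a).obj M) ≫
        (restrictFunctor r).map ((restrictFunctorIsoPullback a).inv.app M) ≫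
          (restrictFunctorComp r a).inv.app M := by
  have h := restrictFunctorIsoPullback_comp r a M
  rw [← cancel_epi ((restrictFunctorIsoPullback (r ≫ a)).hom.app M ≫
    (pullbackComp r a).inv.app M)]
  conv_rhs => rw [h]
  simp only [Category.assoc, Iso.inv_hom_id_app_assoc, Iso.hom_inv_id_app, Iso.hom_inv_id_app_assoc]
  rw [← Functor.map_comp_assoc, Iso.hom_inv_id_app, CategoryTheory.Functor.map_id,
    Category.id_comp, Iso.hom_inv_id_app]

end coh

section trans

open Fermat.Agent.Jac.ModGlue88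

variable {Y₁ Y₂ Y₃ : Scheme.{u}} (g₁ : Y₁ ⟶ X) (g₂ : Y₂ ⟶ X) (g₃ : Y₃ ⟶ X)
  [IsOpenImmersion g₁] [IsOpenImmersion g₂] [IsOpenImmersion g₃]
  (M₁ : Y₁.Modules) (M₂ : Y₂.Modules) (M₃ : Y₃.Modules)
  (q : Z ⟶ X) (a : Z ⟶ Y₁) (b : Z ⟶ Y₂) (c : Z ⟶ Y₃)
  [IsOpenImmersion q] [IsOpenImmersion a] [IsOpenImmersion b] [IsOpenImmersion c]
  (ea : a ≫ g₁ = q) (eb : b ≫ g₂ = q) (ec : c ≫ g₃ = q)

/-- A morphism `a^* M₁ ⟶ b^* M₂` on a test scheme `Z` (with `a ≫ g₁ = q = b ≫ g₂`, all open
immersions) as a morphism between the restrictions to `Z` of the pushforwards of `M₁`, `M₂`. -/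
def transRestrict (θ : (pullback a).obj M₁ ⟶ (pullback b).obj M₂) :
    ((pushforward g₁).obj M₁).restrict q ⟶ ((pushforward g₂).obj M₂).restrict q :=
  (beta a g₁ q ea M₁).hom ≫ (restrictFunctorIsoPullback a).hom.app M₁ ≫ θ ≫
    (restrictFunctorIsoPullback b).inv.app M₂ ≫ (beta b g₂ q eb M₂).inv

lemma transRestrict_id :
    transRestrict g₁ g₁ M₁ M₁ q a a ea ea (𝟙 _) = 𝟙 _ := by
  simp [transRestrict]

lemma transRestrict_comp (θ : (pullback a).obj M₁ ⟶ (pullback b).obj M₂)
    (θ' : (pullback b).obj M₂ ⟶ (pullback c).obj M₃) :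
    transRestrict g₁ g₃ M₁ M₃ q a c ea ec (θ ≫ θ') =
      transRestrict g₁ g₂ M₁ M₂ q a b ea eb θ ≫ transRestrict g₂ g₃ M₂ M₃ q b c eb ec θ' := by
  simp [transRestrict]

lemma transRestrict_pull (r : Z' ⟶ Z) [IsOpenImmersion r]
    (θ : (pullback a).obj M₁ ⟶ (pullback b).obj M₂) :
    transRestrict g₁ g₂ M₁ M₂ (r ≫ q) (r ≫ a) (r ≫ b) (by rw [Category.assoc, ea])
        (by rw [Category.assoc, eb])
        ((pullbackComp r a).inv.app M₁ ≫ (pullback r).map θ ≫ (pullbackComp r b).hom.app M₂) =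
      resR r q (transRestrict g₁ g₂ M₁ M₂ q a b ea eb θ) := by
  have hC := restrictFunctorIsoPullback_comp r a M₁
  have hC' := pullbackComp_hom_comp_rho_inv r b M₂
  have hn := (restrictFunctorIsoPullback r).hom.naturality θ
  have hβ := beta_comp a g₁ q ea M₁ r
  have hβ' := beta_comp_inv b g₂ q eb M₂ r
  simp only [transRestrict, resR, Functor.map_comp, Category.assoc]
  rw [reassoc_of% hC, reassoc_of% hC', reassoc_of% hβ, hβ', ← reassoc_of% hn,
    Iso.hom_inv_id_app_assoc]

/-- the section-level local morphism attached to `θ : a^* M₁ ⟶ b^* M₂` -/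
def transLoc (θ : (pullback a).obj M₁ ⟶ (pullback b).obj M₂) :
    LocHom q.opensRange ((pushforward g₁).obj M₁) ((pushforward g₂).obj M₂) :=
  LocHom.ofRestrict q (transRestrict g₁ g₂ M₁ M₂ q a b ea eb θ)

lemma transLoc_id : transLoc g₁ g₁ M₁ M₁ q a a ea ea (𝟙 _) = LocHom.id _ _ := by
  rw [transLoc, transRestrict_id, LocHom.ofRestrict_id]

lemma transLoc_comp (θ : (pullback a).obj M₁ ⟶ (pullback b).obj M₂)
    (θ' : (pullback b).obj M₂ ⟶ (pullback c).obj M₃) :
    transLoc g₁ g₃ M₁ M₃ q a c ea ec (θ ≫ θ') =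
      (transLoc g₁ g₂ M₁ M₂ q a b ea eb θ).comp (transLoc g₂ g₃ M₂ M₃ q b c eb ec θ') := by
  rw [transLoc, transRestrict_comp g₁ g₂ g₃ M₁ M₂ M₃ q a b c ea eb ec, LocHom.ofRestrict_comp]
  rfl

/-- compatibility of `transLoc` with pulling back the test scheme along an open immersion `r`;
the data downstairs `q' a' b'` may be given up to propositional equality. -/
lemma transLoc_pull (r : Z' ⟶ Z) [IsOpenImmersion r]
    (θ : (pullback a).obj M₁ ⟶ (pullback b).obj M₂)
    (q' : Z' ⟶ X) (a' : Z' ⟶ Y₁) (b' : Z' ⟶ Y₂)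
    [IsOpenImmersion q'] [IsOpenImmersion a'] [IsOpenImmersion b']
    (hq : r ≫ q = q') (ha : r ≫ a = a') (hb : r ≫ b = b')
    (ea' : a' ≫ g₁ = q') (eb' : b' ≫ g₂ = q')
    (θ' : (pullback a').obj M₁ ⟶ (pullback b').obj M₂)
    (hθ : θ' = (pullbackCongr ha).inv.app M₁ ≫ (pullbackComp r a).inv.app M₁ ≫
      (pullback r).map θ ≫ (pullbackComp r b).hom.app M₂ ≫ (pullbackCongr hb).hom.app M₂)
    (W : X.Opens) (hW : W ≤ q'.opensRange) :
    (transLoc g₁ g₂ M₁ M₂ q' a' b' ea' eb' θ').app W hW =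
      (transLoc g₁ g₂ M₁ M₂ q a b ea eb θ).app W
        (hW.trans (by subst hq; exact opensRange_comp_le r q)) := by
  subst hq ha hb
  have h1 : (pullbackCongr (rfl : r ≫ a = r ≫ a)).inv.app M₁ = 𝟙 _ := by
    simp [pullbackCongr]
  have h2 : (pullbackCongr (rfl : r ≫ b = r ≫ b)).hom.app M₂ = 𝟙 _ := by
    simp [pullbackCongr]
  rw [h1, h2, Category.id_comp, Category.comp_id] at hθ
  subst hθ
  have := congrArg (fun L => L.app W hW)
    (show transLoc g₁ g₂ M₁ M₂ (r ≫ q) (r ≫ a) (r ≫ b) ea' eb' _ = _ from by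
      rw [transLoc, transRestrict_pull g₁ g₂ M₁ M₂ q a b ea eb r θ, ofRestrict_resR])
  exact this

end trans

end
end Fermat.Agent.Jac.ModGlue38
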