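import Fermat.Agent.Jac.ModGlue38.Glue

/-!
# Section-level local morphisms vs. Mathlib's `restrictFunctor` (brick M1 ModGlue, helper38)

* `LocHom.topEquiv : LocHom ⊤ A B ≃ (A ⟶ B)`;
* for an open immersion `f : Y ⟶ X`: `LocHom.restrictEquiv f : LocHom f.opensRange A B ≃
  (A.restrict f ⟶ B.restrict f)`, functorial (`toRestrict_id/comp/ofHom`, `ofRestrict_*`);
* `GlueData.restrictIso`: the restriction of the glued module along an open immersion landing in
  `U k` is the restriction of `N k`, compatibly with the transition morphisms.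
-/

set_option autoImplicit false
universe u
open CategoryTheory AlgebraicGeometry TopologicalSpace Opposite
namespace Fermat.Agent.Jac.ModGlue38
noncomputable section
variable {X Y : Scheme.{u}} {A B C : X.Modules}

namespace LocHom

/-- A local morphism on `⊤` is a global morphism. -/
def toHom (g : LocHom (⊤ : X.Opens) A B) : A ⟶ B :=
  ⟨PresheafOfModules.homMk (M₁ := A.val) (M₂ := B.val)
    { app := fun W => g.app W.unop le_top
      naturality := fun _ _ i => g.naturality i.unop le_top }
    (fun W r m => g.map_smul W.unop le_top r m)⟩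

@[simp]
lemma toHom_app (g : LocHom (⊤ : X.Opens) A B) (W : X.Opens) :
    (toHom g).app W = g.app W le_top := rfl

@[simp]
lemma toHom_ofHom (φ : A ⟶ B) : toHom (ofHom ⊤ φ) = φ := by
  ext W
  rfl

@[simp]
lemma ofHom_toHom (g : LocHom (⊤ : X.Opens) A B) : ofHom ⊤ (toHom g) = g := by
  ext W hW
  rfl

/-- `LocHom ⊤ A B ≃ (A ⟶ B)` -/
def topEquiv : LocHom (⊤ : X.Opens) A B ≃ (A ⟶ B) where
  toFun := toHom
  invFun := ofHom ⊤
  left_inv := ofHom_toHom
  right_inv := toHom_ofHom

variable (f : Y ⟶ X) [IsOpenImmersion f]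

/-- A local morphism on `V ⊇ range f` induces a morphism between the restrictions along the open
immersion `f`. -/
def toRestrict {V : X.Opens} (hV : f.opensRange ≤ V) (g : LocHom V A B) :
    A.restrict f ⟶ B.restrict f :=
  ⟨PresheafOfModules.homMk (M₁ := (A.restrict f).val) (M₂ := (B.restrict f).val)
    { app := fun O => g.app (f ''ᵁ O.unop) ((f.image_le_opensRange _).trans hV)
      naturality := fun _ _ i => g.naturality (f.opensFunctor.map i.unop) _ }
    (fun O _ m => g.map_smul (f ''ᵁ O.unop) _ _ m)⟩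

@[simp]
lemma toRestrict_app {V : X.Opens} (hV : f.opensRange ≤ V) (g : LocHom V A B) (O : Y.Opens) :
    (toRestrict f hV g).app O = g.app (f ''ᵁ O) ((f.image_le_opensRange _).trans hV) := rfl

lemma image_preimage_of_le {W : X.Opens} (hW : W ≤ f.opensRange) : f ''ᵁ f ⁻¹ᵁ W = W := by
  rw [Scheme.Hom.image_preimage_eq_opensRange_inf]
  exact inf_eq_right.mpr hW

/-- the `Γ(X, f ''ᵁ O)`-action on sections of `A` over `f ''ᵁ O` in terms of the
`Γ(Y, O)`-action on sections of `A.restrict f` over `O`. -/
lemma smul_eq_restrict_smul (A : X.Modules) (O : Y.Opens) (x : Γ(X, f ''ᵁ O))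
    (t : Γ(A, f ''ᵁ O)) :
    x • t = (show Γ(A.restrict f, O) from
      ((f.appIso O).hom x • (show Γ(A.restrict f, O) from t))) := by
  change x • t = ((f.appIso O).inv ((f.appIso O).hom x)) • t
  simp

lemma restrict_hom_naturality_apply (ψ : A.restrict f ⟶ B.restrict f) {O O' : Y.Opens}
    (k : O' ⟶ O) (x : Γ(A, f ''ᵁ O)) :
    ψ.app O' (A.presheaf.map (f.opensFunctor.map k).op x) =
      B.presheaf.map (f.opensFunctor.map k).op (ψ.app O x) :=
  ConcreteCategory.congr_hom (ψ.mapPresheaf.naturality k.op) x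

/-- A morphism between the restrictions along an open immersion `f`, as a local morphism on
the range of `f`. -/
def ofRestrict (ψ : A.restrict f ⟶ B.restrict f) : LocHom f.opensRange A B where
  app W hW := A.presheaf.map (homOfLE (image_preimage_of_le f hW).le).op ≫
    (A.restrictAppIso f _).inv ≫ ψ.app (f ⁻¹ᵁ W) ≫ (B.restrictAppIso f _).hom ≫
    B.presheaf.map (homOfLE (image_preimage_of_le f hW).ge).op
  naturality {W W'} i hW := by
    ext s
    have k : f ⁻¹ᵁ W' ⟶ f ⁻¹ᵁ W := homOfLE (f.preimage_mono i.le)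
    change B.presheaf.map _ (ψ.app (f ⁻¹ᵁ W') (A.presheaf.map _ (A.presheaf.map i.op s))) =
      B.presheaf.map i.op (B.presheaf.map _ (ψ.app (f ⁻¹ᵁ W) (A.presheaf.map _ s)))
    have e1 : A.presheaf.map (homOfLE (image_preimage_of_le f (i.le.trans hW)).le).op
        (A.presheaf.map i.op s) = A.presheaf.map (f.opensFunctor.map k).op
          (A.presheaf.map (homOfLE (image_preimage_of_le f hW).le).op s) :=
      (map_map_apply _ _ _ (homOfLE ((image_preimage_of_le f (i.le.trans hW)).le.trans i.le)) _).trans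
        (map_map_apply _ _ _ _ _).symm
    have e2 := restrict_hom_naturality_apply f ψ k
      (A.presheaf.map (homOfLE (image_preimage_of_le f hW).le).op s)
    have e3 (y : Γ(B, f ''ᵁ f ⁻¹ᵁ W)) :
        B.presheaf.map (homOfLE (image_preimage_of_le f (i.le.trans hW)).ge).op
          (B.presheaf.map (f.opensFunctor.map k).op y) =
        B.presheaf.map i.op (B.presheaf.map (homOfLE (image_preimage_of_le f hW).ge).op y) :=
      (map_map_apply _ _ _ (homOfLE (i.le.trans (image_preimage_of_le f hW).ge)) _).trans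
        (map_map_apply _ _ _ _ _).symm
    exact (congrArg (fun z => B.presheaf.map
      (homOfLE (image_preimage_of_le f (i.le.trans hW)).ge).op (ψ.app (f ⁻¹ᵁ W') z)) e1).trans
      ((congrArg (B.presheaf.map (homOfLE (image_preimage_of_le f (i.le.trans hW)).ge).op)
        e2).trans (e3 _))
  map_smul W hW r s := by
    change B.presheaf.map _ (ψ.app (f ⁻¹ᵁ W) (A.presheaf.map _ (r • s))) =
      r • B.presheaf.map _ (ψ.app (f ⁻¹ᵁ W) (A.presheaf.map _ s))
    have e1 : A.presheaf.map (homOfLE (image_preimage_of_le f hW).le).op (r • s) =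
        (X.presheaf.map (homOfLE (image_preimage_of_le f hW).le).op r) •
          A.presheaf.map (homOfLE (image_preimage_of_le f hW).le).op s :=
      Scheme.Modules.map_smul _ _ _ _
    have e2 (x : Γ(X, f ''ᵁ f ⁻¹ᵁ W)) (t : Γ(A, f ''ᵁ f ⁻¹ᵁ W)) :
        ψ.app (f ⁻¹ᵁ W) (x • t) = x • (show Γ(B, f ''ᵁ f ⁻¹ᵁ W) from ψ.app (f ⁻¹ᵁ W) t) := by
      rw [smul_eq_restrict_smul f A, smul_eq_restrict_smul f B]
      exact ψ.app_smul _ _
    have e3 (x : Γ(X, f ''ᵁ f ⁻¹ᵁ W)) (y : Γ(B, f ''ᵁ f ⁻¹ᵁ W)) :
        B.presheaf.map (homOfLE (image_preimage_of_le f hW).ge).op (x • y) =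
        (X.presheaf.map (homOfLE (image_preimage_of_le f hW).ge).op x) •
          B.presheaf.map (homOfLE (image_preimage_of_le f hW).ge).op y :=
      Scheme.Modules.map_smul _ _ _ _
    have e4 : X.presheaf.map (homOfLE (image_preimage_of_le f hW).ge).op
        (X.presheaf.map (homOfLE (image_preimage_of_le f hW).le).op r) = r := by
      rw [GlueData.ring_map_map_apply _ _ (𝟙 W)]
      simp
    refine (congrArg (fun z => B.presheaf.map (homOfLE (image_preimage_of_le f hW).ge).op
      (ψ.app (f ⁻¹ᵁ W) z)) e1).trans ?_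
    refine (congrArg (B.presheaf.map (homOfLE (image_preimage_of_le f hW).ge).op)
      (e2 _ _)).trans ?_
    refine (e3 _ _).trans ?_
    rw [e4]

lemma ofRestrict_app_apply (ψ : A.restrict f ⟶ B.restrict f) (W : X.Opens)
    (hW : W ≤ f.opensRange) (s : Γ(A, W)) :
    (ofRestrict f ψ).app W hW s = B.presheaf.map (homOfLE (image_preimage_of_le f hW).ge).op
      (ψ.app (f ⁻¹ᵁ W) (A.presheaf.map (homOfLE (image_preimage_of_le f hW).le).op s)) := rfl

@[simp]
lemma ofRestrict_toRestrict (g : LocHom f.opensRange A B) :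
    ofRestrict f (toRestrict f le_rfl g) = g := by
  ext W hW s
  change B.presheaf.map (homOfLE (image_preimage_of_le f hW).ge).op
    (g.app (f ''ᵁ f ⁻¹ᵁ W) (f.image_le_opensRange _)
      (A.presheaf.map (homOfLE (image_preimage_of_le f hW).le).op s)) = g.app W hW s
  rw [LocHom.naturality_apply _ _ hW, map_map_apply _ _ _ (𝟙 W)]
  simp

@[simp]
lemma toRestrict_ofRestrict (ψ : A.restrict f ⟶ B.restrict f) :
    toRestrict f le_rfl (ofRestrict f ψ) = ψ := by
  ext O s
  have k : f ⁻¹ᵁ f ''ᵁ O ⟶ O := homOfLE (f.preimage_image_eq O).le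
  have e2 := restrict_hom_naturality_apply f ψ k s
  refine (congrArg (B.presheaf.map (homOfLE (image_preimage_of_le f
    (f.image_le_opensRange O)).ge).op) e2).trans ?_
  have e3 (y : Γ(B, f ''ᵁ O)) : B.presheaf.map (homOfLE (image_preimage_of_le f
      (f.image_le_opensRange O)).ge).op (B.presheaf.map (f.opensFunctor.map k).op y) = y := by
    rw [map_map_apply _ _ _ (𝟙 _)]
    simp
  exact e3 _

/-- Morphisms between restrictions along an open immersion `f` are the same as local morphisms
on the range of `f`. -/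
def restrictEquiv : LocHom f.opensRange A B ≃ (A.restrict f ⟶ B.restrict f) where
  toFun := toRestrict f le_rfl
  invFun := ofRestrict f
  left_inv := ofRestrict_toRestrict f
  right_inv := toRestrict_ofRestrict f

@[simp]
lemma toRestrict_id {V : X.Opens} (hV : f.opensRange ≤ V) :
    toRestrict f hV (LocHom.id V A) = 𝟙 (A.restrict f) := by
  ext O s
  rfl

@[simp]
lemma toRestrict_comp {V : X.Opens} (hV : f.opensRange ≤ V) (g : LocHom V A B)
    (g' : LocHom V B C) :
    toRestrict f hV (g.comp g') = toRestrict f hV g ≫ toRestrict f hV g' := by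
  ext O s
  rfl

@[simp]
lemma toRestrict_ofHom {V : X.Opens} (hV : f.opensRange ≤ V) (φ : A ⟶ B) :
    toRestrict f hV (ofHom V φ) = (Scheme.Modules.restrictFunctor f).map φ := by
  ext O s
  rfl

lemma toRestrict_restrict {V V' : X.Opens} (hV : f.opensRange ≤ V') (h : V' ≤ V)
    (g : LocHom V A B) :
    toRestrict f hV (g.restrict h) = toRestrict f (hV.trans h) g := by
  ext O s
  rfl

@[simp]
lemma ofRestrict_id : ofRestrict f (𝟙 (A.restrict f)) = LocHom.id _ A := by
  rw [← toRestrict_id f le_rfl, ofRestrict_toRestrict]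

lemma ofRestrict_comp (ψ : A.restrict f ⟶ B.restrict f) (ψ' : B.restrict f ⟶ C.restrict f) :
    ofRestrict f (ψ ≫ ψ') = (ofRestrict f ψ).comp (ofRestrict f ψ') := by
  apply (restrictEquiv f).injective
  change toRestrict f le_rfl _ = toRestrict f le_rfl _
  rw [toRestrict_comp, toRestrict_ofRestrict, toRestrict_ofRestrict, toRestrict_ofRestrict]

@[simp]
lemma ofRestrict_map (φ : A ⟶ B) :
    ofRestrict f ((Scheme.Modules.restrictFunctor f).map φ) = ofHom _ φ := by
  rw [← toRestrict_ofHom f le_rfl, ofRestrict_toRestrict]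

end LocHom

namespace GlueData

variable (D : GlueData X) (f : Y ⟶ X) [IsOpenImmersion f]

/-- The restriction of the glued module along an open immersion landing in `U k` is the
restriction of `N k`. -/
def restrictIso (k : D.ι) (hf : f.opensRange ≤ D.U k) :
    D.glued.restrict f ≅ (D.N k).restrict f where
  hom := LocHom.toRestrict f hf (D.proj k)
  inv := LocHom.toRestrict f hf (D.lift k)
  hom_inv_id := by rw [← LocHom.toRestrict_comp, proj_lift, LocHom.toRestrict_id]
  inv_hom_id := by rw [← LocHom.toRestrict_comp, lift_proj, LocHom.toRestrict_id]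

/-- compatibility of `restrictIso` with the transition morphisms -/
lemma restrictIso_hom_comp_φ (i j : D.ι) (hf : f.opensRange ≤ D.U i ⊓ D.U j) :
    (D.restrictIso f i (hf.trans inf_le_left)).hom ≫ LocHom.toRestrict f hf (D.φ i j) =
      (D.restrictIso f j (hf.trans inf_le_right)).hom := by
  change LocHom.toRestrict f (hf.trans inf_le_left) (D.proj i) ≫ _ =
    LocHom.toRestrict f (hf.trans inf_le_right) (D.proj j)
  rw [← LocHom.toRestrict_restrict f hf inf_le_left, ← LocHom.toRestrict_comp, proj_comp_φ,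
    LocHom.toRestrict_restrict]

end GlueData

end
end Fermat.Agent.Jac.ModGlue38
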