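import Fermat.Agent.Jac.ModGlue38.PBGlue

/-!
# Effective descent of `𝒪`-modules along open covers, `DescentData` form (brick M1b, helper38)
-/

set_option autoImplicit false
universe u
open CategoryTheory AlgebraicGeometry TopologicalSpace Opposite
namespace Fermat.Agent.Jac.ModGlue38
open Scheme.Modules
noncomputable section

/-- The pseudofunctor `X ↦ X.Modules` (with the pullback functors) on schemes. -/
def Fmod : Pseudofunctor (LocallyDiscrete Scheme.{u}ᵒᵖ) Cat.{u, u + 1} :=
  Scheme.Modules.pseudofunctor.comp Bicategory.Adj.forget₁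

variable {X : Scheme.{u}}

lemma Fmod_map {Y Z : Scheme.{u}} (f : Z ⟶ Y) :
    (Fmod.map f.op.toLoc).toFunctor = Scheme.Modules.pullback f := rfl

lemma Fmod_mapComp_hom_app {X Y Z : Scheme.{u}} (f : Y ⟶ X) (g : Z ⟶ Y) (M : X.Modules) :
    (Fmod.mapComp f.op.toLoc g.op.toLoc).hom.toNatTrans.app M = (pullbackComp g f).inv.app M :=
  rfl

lemma Fmod_mapComp_inv_app {X Y Z : Scheme.{u}} (f : Y ⟶ X) (g : Z ⟶ Y) (M : X.Modules) :
    (Fmod.mapComp f.op.toLoc g.op.toLoc).inv.toNatTrans.app M = (pullbackComp g f).hom.app M :=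
  rfl

section Convert

variable {ι : Type u} {Y : ι → Scheme.{u}} {g : ∀ i, Y i ⟶ X}

open Pseudofunctor LocallyDiscreteOpToCat in
/-- Mathlib's descent data for the pseudofunctor of `𝒪`-modules, in unfolded form. -/
def PBDescent.ofDescentData (D : Fmod.DescentData g) : PBDescent g where
  M := D.obj
  hom q _ _ a b ha hb := D.hom q a b ha hb
  hom_self q _ a ha := D.hom_self q a ha
  hom_comp q _ _ _ a b c ha hb hc := D.hom_comp q a b c ha hb hc
  pull_hom := by
    intro Z' Z r q i j a b ha hb q' a' b' hq ha' hb' ha'' hb''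
    subst ha' hb' hq
    rw [← D.pullHom_hom r q (r ≫ q) rfl a b ha hb (r ≫ a) (r ≫ b) rfl rfl]
    have h1 : (pullbackCongr (rfl : r ≫ a = r ≫ a)).inv.app (D.obj i) = 𝟙 _ := by
      simp [pullbackCongr]
    have h2 : (pullbackCongr (rfl : r ≫ b = r ≫ b)).hom.app (D.obj j) = 𝟙 _ := by
      simp [pullbackCongr]
    rw [h1, h2, Category.id_comp, Category.comp_id]
    simp only [pullHom]
    rfl

end Convert

section Chosen

open Limits

universe v' u'

variable {C : Type u'} [Category.{v'} C] [HasPullbacks C]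

/-- the standard chosen pullback in a category with pullbacks -/
def stdChosenPullback {X₁ X₂ S : C} (f₁ : X₁ ⟶ S) (f₂ : X₂ ⟶ S) : ChosenPullback f₁ f₂ where
  pullback := Limits.pullback f₁ f₂
  p₁ := pullback.fst f₁ f₂
  p₂ := pullback.snd f₁ f₂
  condition := pullback.condition
  isLimit := pullbackIsPullback f₁ f₂

lemma stdChosenPullback_w {X₁ X₂ X₃ S : C} (f₁ : X₁ ⟶ S) (f₂ : X₂ ⟶ S) (f₃ : X₃ ⟶ S) :
    (pullback.fst (pullback.snd f₁ f₂) (pullback.fst f₂ f₃) ≫ pullback.fst f₁ f₂) ≫ f₁ =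
      (pullback.snd (pullback.snd f₁ f₂) (pullback.fst f₂ f₃) ≫ pullback.snd f₂ f₃) ≫ f₃ := by
  have h := pullback.condition (f := pullback.snd f₁ f₂) (g := pullback.fst f₂ f₃)
  rw [Category.assoc, pullback.condition, ← Category.assoc, h, Category.assoc,
    pullback.condition, Category.assoc]

/-- the standard chosen triple pullback in a category with pullbacks -/
def stdChosenPullback₃ {X₁ X₂ X₃ S : C} (f₁ : X₁ ⟶ S) (f₂ : X₂ ⟶ S) (f₃ : X₃ ⟶ S) :
    ChosenPullback₃ (stdChosenPullback f₁ f₂) (stdChosenPullback f₂ f₃)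
      (stdChosenPullback f₁ f₃) where
  chosenPullback := stdChosenPullback _ _
  l :=
    { f := pullback.lift (pullback.fst _ _ ≫ pullback.fst f₁ f₂)
        (pullback.snd _ _ ≫ pullback.snd f₂ f₃) (stdChosenPullback_w f₁ f₂ f₃)
      f_p₁ := pullback.lift_fst _ _ _
      f_p₂ := pullback.lift_snd _ _ _
      f_p := (pullback.lift_fst_assoc _ _ _ _).trans (Category.assoc _ _ _) }

end Chosen

section EssSurj

open Limits Pseudofunctor

variable {ι : Type u} {Y : ι → Scheme.{u}} (g : ∀ i, Y i ⟶ X)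

/-- the coherence isomorphism `mapComp'` of `Fmod` in terms of `pullbackComp` and
`pullbackCongr` -/
lemma Fmod_mapComp'_hom_app {Y Z : Scheme.{u}} (f : Y ⟶ X) (a : Z ⟶ Y) (q : Z ⟶ X)
    (hq : a ≫ f = q) (M : X.Modules) :
    (Fmod.mapComp' f.op.toLoc a.op.toLoc q.op.toLoc (by subst hq; rfl)).hom.toNatTrans.app M =
      (pullbackCongr hq).inv.app M ≫ (pullbackComp a f).inv.app M := by
  subst hq
  have h1 : (pullbackCongr (rfl : a ≫ f = a ≫ f)).inv.app M = 𝟙 _ := by
    simp [pullbackCongr]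
  rw [h1, Category.id_comp]
  exact congrArg (fun e => e.hom.toNatTrans.app M) (mapComp'_eq_mapComp Fmod f.op.toLoc a.op.toLoc)

lemma Fmod_mapComp'_inv_app {Y Z : Scheme.{u}} (f : Y ⟶ X) (a : Z ⟶ Y) (q : Z ⟶ X)
    (hq : a ≫ f = q) (M : X.Modules) :
    (Fmod.mapComp' f.op.toLoc a.op.toLoc q.op.toLoc (by subst hq; rfl)).inv.toNatTrans.app M =
      (pullbackComp a f).hom.app M ≫ (pullbackCongr hq).hom.app M := by
  subst hq
  have h1 : (pullbackCongr (rfl : a ≫ f = a ≫ f)).hom.app M = 𝟙 _ := by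
    simp [pullbackCongr]
  rw [h1, Category.comp_id]
  exact congrArg (fun e => e.inv.toNatTrans.app M) (mapComp'_eq_mapComp Fmod f.op.toLoc a.op.toLoc)


end EssSurj
end
end Fermat.Agent.Jac.ModGlue38
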